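import Fermat.Agent.LagariasLucas.Field
import Mathlib.Data.Nat.Fib.Basic
import Mathlib.FieldTheory.IsAlgClosed.AlgebraicClosure
import Mathlib.FieldTheory.Finite.Basic
import Mathlib.NumberTheory.LegendreSymbol.QuadraticReciprocity

/-!
# The primes dividing a Lucas number

In a field with `φ ^ 2 = φ + 1` the `n`th Lucas number vanishes when `(-φ ^ 2) ^ n = -1`, so `p`
divides a Lucas number when `-φ ^ 2` has even order modulo `p`.
-/

set_option autoImplicit false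
set_option linter.style.haveILetI false

noncomputable section

open Polynomial

namespace FA.LagariasLucas

/-- `p` divides a Lucas number. -/
def DvdLucas (p : ℕ) : Prop := ∃ n : ℕ, p ∣ 2 * Nat.fib (n + 1) - Nat.fib n

/-- The `j`-th layer of the primes dividing no Lucas number, `j = t + 2`. -/
def Layer (t p : ℕ) : Prop :=
  (GoldPow (t + 2) t p ∧ ¬ GoldPow (t + 2) (t + 1) p) ∧
    ¬ (GoldPow (t + 3) t p ∧ ¬ GoldPow (t + 3) (t + 1) p)

theorem binet {R : Type} [CommRing R] {φ : R} (hφ : φ ^ 2 = φ + 1) : ∀ n : ℕ,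
    φ ^ n + (1 - φ) ^ n = 2 * (Nat.fib (n + 1) : R) - (Nat.fib n : R) ∧
      φ ^ (n + 1) + (1 - φ) ^ (n + 1) = 2 * (Nat.fib (n + 2) : R) - (Nat.fib (n + 1) : R) := by
  intro n
  induction n with
  | zero => norm_num
  | succ n ih =>
    refine ⟨ih.2, ?_⟩
    rw [Nat.fib_add_two (n := n + 1), Nat.fib_add_two (n := n)]
    rw [Nat.fib_add_two (n := n)] at ih
    push_cast at ih ⊢
    linear_combination ih.1 + ih.2 + (φ ^ n + (1 - φ) ^ n) * hφ

theorem dvd_iff {F : Type} [Field F] {p : ℕ} [CharP F p] {φ : F} (hφ : φ ^ 2 = φ + 1) (n : ℕ) :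
    p ∣ 2 * Nat.fib (n + 1) - Nat.fib n ↔ (-φ ^ 2) ^ n = -1 := by
  have hle : Nat.fib n ≤ 2 * Nat.fib (n + 1) := by
    have := Nat.fib_le_fib_succ (n := n); omega
  have hφ0 : φ ≠ 0 := fun e => by simp [e] at hφ
  have h1 : φ ^ n * (φ ^ n + (1 - φ) ^ n) = (φ ^ 2) ^ n + (-1) ^ n := by
    rw [mul_add, ← mul_pow, ← mul_pow, ← sq, show φ * (1 - φ) = -1 by linear_combination -hφ]
  rw [← CharP.cast_eq_zero_iff F p, Nat.cast_sub hle, Nat.cast_mul, Nat.cast_ofNat,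
    ← (binet hφ n).1, neg_pow]
  have h2 : ((-1 : F) ^ n) ^ 2 = 1 := by rw [← pow_mul, mul_comm, pow_mul]; norm_num
  constructor
  · intro h
    rw [h, mul_zero] at h1
    linear_combination (-(-1 : F) ^ n) * h1 - h2
  · intro h
    refine (mul_eq_zero.1 (h1.trans ?_)).resolve_left (pow_ne_zero n hφ0)
    linear_combination (-1 : F) ^ n * h - (φ ^ 2) ^ n * h2

theorem not_dvdLucas_of_pow_eq_one {F : Type} [Field F] {p : ℕ} [CharP F p] (h2 : (2 : F) ≠ 0)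
    {φ : F} (hφ : φ ^ 2 = φ + 1) {m : ℕ} (hm : Odd m) (h : (-φ ^ 2) ^ m = 1) :
    ¬ DvdLucas p := by
  rintro ⟨n, hn⟩
  rw [dvd_iff hφ] at hn
  have : (1 : F) = -1 := by
    rw [← hm.neg_one_pow, ← hn, ← pow_mul, mul_comm, pow_mul, h, one_pow]
  exact h2 (by linear_combination this)

/-- A zero of `X² - X - 1` in an algebraic closure. -/
theorem exists_root_closure (p : ℕ) [Fact p.Prime] :
    ∃ φ : AlgebraicClosure (ZMod p), φ ^ 2 = φ + 1 ∧
      (φ ^ p = φ ∨ φ ^ p = 1 - φ) := by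
  obtain ⟨φ, hφ⟩ := IsAlgClosed.exists_root
    (X ^ 2 - (X + 1) : (AlgebraicClosure (ZMod p))[X]) (by
      rw [show (X ^ 2 - (X + 1) : (AlgebraicClosure (ZMod p))[X]).degree = 2 by compute_degree!]
      norm_num)
  rw [IsRoot, eval_sub, eval_add, eval_pow, eval_X, eval_one, sub_eq_zero] at hφ
  refine ⟨φ, hφ, ?_⟩
  haveI : ExpChar (AlgebraicClosure (ZMod p)) p := ExpChar.prime Fact.out
  have h : (φ ^ p) ^ 2 = φ ^ p + 1 := by
    rw [pow_right_comm, hφ, add_pow_expChar, one_pow]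
  have h' : (φ ^ p - φ) * (φ ^ p + φ - 1) = 0 := by linear_combination h - hφ
  rcases mul_eq_zero.1 h' with h1 | h1
  · exact Or.inl (sub_eq_zero.1 h1)
  · exact Or.inr (by linear_combination h1)

/-- **All primes `p ≡ 3 (mod 4)` divide a Lucas number.** -/
theorem dvdLucas_of_three {p : ℕ} (hp : p.Prime) (h3 : p % 4 = 3) : DvdLucas p := by
  haveI : Fact p.Prime := ⟨hp⟩
  haveI : CharP (AlgebraicClosure (ZMod p)) p :=
    charP_of_injective_algebraMap (algebraMap (ZMod p) _).injective p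
  obtain ⟨φ, hφ, h | h⟩ := exists_root_closure p
  · refine ⟨(p - 1) / 2, (dvd_iff hφ _).2 ?_⟩
    have hφ0 : φ ≠ 0 := fun e => by simp [e] at hφ
    have h1 : φ ^ (p - 1) = 1 := mul_right_cancel₀ hφ0 (by
      rw [← pow_succ, Nat.sub_add_cancel hp.one_le, h, one_mul])
    rw [neg_pow, ← pow_mul, show 2 * ((p - 1) / 2) = p - 1 by omega, h1,
      (Nat.odd_iff.2 (by omega) : Odd ((p - 1) / 2)).neg_one_pow, mul_one]
  · refine ⟨(p + 1) / 2, (dvd_iff hφ _).2 ?_⟩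
    rw [neg_pow, ← pow_mul, show 2 * ((p + 1) / 2) = p + 1 by omega, pow_succ, h,
      (Nat.even_iff.2 (by omega) : Even ((p + 1) / 2)).neg_one_pow, one_mul]
    linear_combination -hφ

/-- `X² - X - 1` has a root modulo `p`. -/
def HasGolden (p : ℕ) : Prop := ∃ φ : ZMod p, φ ^ 2 = φ + 1

theorem not_dvdLucas_of_one {p : ℕ} (hp : p.Prime) (h1 : p % 4 = 1) (h : ¬ HasGolden p) :
    ¬ DvdLucas p := by
  haveI : Fact p.Prime := ⟨hp⟩
  haveI : CharP (AlgebraicClosure (ZMod p)) p :=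
    charP_of_injective_algebraMap (algebraMap (ZMod p) _).injective p
  have h2 : (2 : AlgebraicClosure (ZMod p)) ≠ 0 := fun e => by
    have := Nat.le_of_dvd two_pos ((CharP.cast_eq_zero_iff (AlgebraicClosure (ZMod p)) p 2).1
      (by exact_mod_cast e))
    have := hp.two_le
    omega
  obtain ⟨φ, hφ, h' | h'⟩ := exists_root_closure p
  · rw [← Subfield.mem_bot_iff_pow_eq_self (AlgebraicClosure (ZMod p)) p,
      ← ZMod.fieldRange_castHom_eq_bot p] at h'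
    obtain ⟨y, hy⟩ := h'
    refine absurd ⟨y, (ZMod.castHom (dvd_refl p) (AlgebraicClosure (ZMod p))).injective ?_⟩ h
    rw [map_pow, map_add, map_one]
    show (ZMod.castHom _ _ y) ^ 2 = ZMod.castHom _ _ y + 1
    rw [hy]
    exact hφ
  · refine not_dvdLucas_of_pow_eq_one h2 hφ (m := (p + 1) / 2) (Nat.odd_iff.2 (by omega)) ?_
    rw [neg_pow, ← pow_mul, show 2 * ((p + 1) / 2) = p + 1 by omega, pow_succ, h',
      (Nat.odd_iff.2 (by omega) : Odd ((p + 1) / 2)).neg_one_pow]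
    linear_combination hφ

/-- The condition does not depend on the root when the exponent is even. -/
theorem pow_eq_one_of_root {F : Type} [Field F] {φ ψ : F} (hφ : φ ^ 2 = φ + 1)
    (hψ : ψ ^ 2 = ψ + 1) {e : ℕ} (he : Even e) (h : φ ^ e = 1) : ψ ^ e = 1 := by
  have h' : (ψ - φ) * (ψ + φ - 1) = 0 := by linear_combination hψ - hφ
  rcases mul_eq_zero.1 h' with h1 | h1
  · rw [sub_eq_zero.1 h1, h]
  · have : φ * ψ = -1 := by linear_combination φ * h1 - hφ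
    have h3 : (-1 : F) ^ e = 1 := he.neg_one_pow
    rwa [← this, mul_pow, h, one_mul] at h3

theorem goldPow_iff {i k p : ℕ} [hp : Fact p.Prime] (hki : k + 1 ≤ i) {φ : ZMod p}
    (hφ : φ ^ 2 = φ + 1) :
    GoldPow i k p ↔ 2 ^ i ∣ p - 1 ∧ φ ^ ((p - 1) / 2 ^ k) = 1 := by
  refine ⟨fun ⟨hd, ψ, hψ, h⟩ => ⟨hd, pow_eq_one_of_root hψ hφ ?_ h⟩,
    fun ⟨hd, h⟩ => ⟨hd, φ, hφ, h⟩⟩
  obtain ⟨c, hc⟩ := (pow_dvd_pow 2 hki).trans hd
  rw [hc, pow_succ, mul_assoc, Nat.mul_div_cancel_left _ (Nat.two_pow_pos k)]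
  exact even_two_mul c

/-- A layer lies over the primes `p ≡ 1 (mod 2 ^ (t + 2))`, not mod `2 ^ (t + 3)`. -/
theorem layer_iff {t p : ℕ} [hp : Fact p.Prime] {φ : ZMod p} (hφ : φ ^ 2 = φ + 1) :
    Layer t p ↔ 2 ^ (t + 2) ∣ p - 1 ∧ ¬ 2 ^ (t + 3) ∣ p - 1 ∧
      φ ^ ((p - 1) / 2 ^ t) = 1 ∧ φ ^ ((p - 1) / 2 ^ (t + 1)) ≠ 1 := by
  rw [Layer, goldPow_iff (by omega) hφ, goldPow_iff (by omega) hφ, goldPow_iff (by omega) hφ,
    goldPow_iff (by omega) hφ]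
  constructor
  · rintro ⟨⟨⟨h1, h2⟩, h3⟩, h4⟩
    exact ⟨h1, fun h => h4 ⟨⟨h, h2⟩, fun h' => h3 ⟨h1, h'.2⟩⟩, h2, fun h => h3 ⟨h1, h⟩⟩
  · rintro ⟨h1, h2, h3, h4⟩
    exact ⟨⟨⟨h1, h3⟩, fun h => h4 h.2⟩, fun h => h2 h.1.1⟩

/-- The highest power of two in `p - 1`. -/
theorem exists_twoPart {p : ℕ} (hp : p.Prime) (h1 : p % 4 = 1) :
    ∃ t r : ℕ, p - 1 = 2 ^ (t + 2) * r ∧ Odd r := by
  obtain ⟨j, r, hr, hjr⟩ := Nat.exists_eq_pow_mul_and_not_dvd
    (n := p - 1) (by have := hp.two_le; omega) 2 (by norm_num)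
  have hj : 2 ≤ j := by
    by_contra hj
    rcases (show j = 0 ∨ j = 1 by omega) with rfl | rfl
    · rw [pow_zero, one_mul] at hjr
      omega
    · rw [pow_one] at hjr
      omega
  exact ⟨j - 2, r, by rw [hjr, Nat.sub_add_cancel hj], Nat.odd_iff.2 (by omega)⟩

theorem not_dvd_of_eq {p t r : ℕ} (h : p - 1 = 2 ^ (t + 2) * r) (hr : Odd r) :
    ¬ 2 ^ (t + 3) ∣ p - 1 := by
  rw [h, show t + 3 = t + 2 + 1 from rfl, pow_succ, Nat.mul_dvd_mul_iff_left (Nat.two_pow_pos _)]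
  exact fun hd => Nat.not_even_iff_odd.2 hr (even_iff_two_dvd.2 hd)

theorem layer_unique {t t' p : ℕ} [Fact p.Prime] (h : Layer t p) (h' : Layer t' p) : t = t' := by
  obtain ⟨φ, hφ⟩ : HasGolden p := let ⟨φ, hφ, _⟩ := h.1.1.2; ⟨φ, hφ⟩
  obtain ⟨a, b, -, -⟩ := (layer_iff hφ).1 h
  obtain ⟨a', b', -, -⟩ := (layer_iff hφ).1 h'
  refine le_antisymm (not_lt.1 fun hlt => b' ?_) (not_lt.1 fun hlt => b ?_)
  · exact (pow_dvd_pow 2 (show t' + 3 ≤ t + 2 by omega)).trans a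
  · exact (pow_dvd_pow 2 (show t + 3 ≤ t' + 2 by omega)).trans a'

/-- The split primes `p ≡ 1 (mod 4)`. -/
theorem not_dvdLucas_iff_layer {p : ℕ} [hp : Fact p.Prime] (h1 : p % 4 = 1) {φ : ZMod p}
    (hφ : φ ^ 2 = φ + 1) : ¬ DvdLucas p ↔ ∃ t, Layer t p := by
  have h2 : (2 : ZMod p) ≠ 0 := fun e => by
    have := Nat.le_of_dvd two_pos ((ZMod.natCast_eq_zero_iff 2 p).1 (by exact_mod_cast e))
    have := hp.out.two_le
    omega
  obtain ⟨t, r, hr, hodd⟩ := exists_twoPart hp.out h1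
  have hθ : (-φ ^ 2) ^ r = -φ ^ ((p - 1) / 2 ^ (t + 1)) := by
    rw [neg_pow, hodd.neg_one_pow, ← pow_mul, neg_one_mul, hr, pow_succ 2 (t + 1), mul_assoc,
      Nat.mul_div_cancel_left _ (Nat.two_pow_pos _)]
  have hθt : (-φ ^ 2) ^ (p - 1) = 1 :=
    ZMod.pow_card_sub_one_eq_one (neg_ne_zero.2 (pow_ne_zero 2 fun e => by simp [e] at hφ))
  have hne : ¬ DvdLucas p ↔ (-φ ^ 2) ^ r = 1 := by
    refine ⟨fun hL => ?_, not_dvdLucas_of_pow_eq_one h2 hφ hodd⟩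
    have key : ∀ s, ((-φ ^ 2) ^ r) ^ 2 ^ s = 1 → (-φ ^ 2) ^ r = 1 := by
      intro s
      induction s with
      | zero => simp
      | succ s ih =>
        intro hs
        rw [pow_succ 2 s, pow_mul, sq_eq_one_iff] at hs
        rcases hs with hs | hs
        · exact ih hs
        · exact absurd ⟨r * 2 ^ s, (dvd_iff hφ _).2 (by rw [pow_mul, hs])⟩ hL
    exact key (t + 2) (by rw [← pow_mul, mul_comm, ← hr, hθt])
  rw [hne, hθ]
  have hdiv : (p - 1) / 2 ^ t = (p - 1) / 2 ^ (t + 1) * 2 := by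
    rw [hr, show t + 2 = t + 1 + 1 from rfl, pow_succ 2 (t + 1), mul_assoc,
      Nat.mul_div_cancel_left _ (Nat.two_pow_pos _), pow_succ, mul_assoc,
      Nat.mul_div_cancel_left _ (Nat.two_pow_pos _)]
    ring
  constructor
  · intro h
    refine ⟨t, (layer_iff hφ).2 ⟨Dvd.intro _ hr.symm, not_dvd_of_eq hr hodd, ?_, fun e => ?_⟩⟩
    · rw [hdiv, pow_mul]
      linear_combination (1 - φ ^ ((p - 1) / 2 ^ (t + 1))) * h
    · rw [e] at h
      exact h2 (by linear_combination -h)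
  · rintro ⟨t', ht'⟩
    obtain ⟨a, b, c, d⟩ := (layer_iff hφ).1 ht'
    obtain rfl : t' = t := by
      refine le_antisymm (not_lt.1 fun hlt => ?_) (not_lt.1 fun hlt => b ?_)
      · exact not_dvd_of_eq hr hodd ((pow_dvd_pow 2 (show t + 3 ≤ t' + 2 by omega)).trans a)
      · exact (pow_dvd_pow 2 (show t' + 3 ≤ t + 2 by omega)).trans (Dvd.intro _ hr.symm)
    rw [hdiv, pow_mul, sq_eq_one_iff] at c
    rw [c.resolve_left d, neg_neg]

theorem hasGolden_iff {p : ℕ} [hp : Fact p.Prime] (hp2 : p ≠ 2) (hp5 : p ≠ 5) :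
    HasGolden p ↔ p % 5 = 1 ∨ p % 5 = 4 := by
  have key : ∀ r < 5, r ≠ 0 → (IsSquare ((r : ℕ) : ZMod 5) ↔ r = 1 ∨ r = 4) := by decide
  haveI : Fact (Nat.Prime 5) := ⟨Nat.prime_five⟩
  have h2 : (2 : ZMod p) ≠ 0 := fun e => hp2 ((Nat.prime_dvd_prime_iff_eq hp.out Nat.prime_two).1
    ((ZMod.natCast_eq_zero_iff 2 p).1 (by exact_mod_cast e)))
  have h : HasGolden p ↔ IsSquare ((5 : ℕ) : ZMod p) := by
    constructor
    · rintro ⟨φ, hφ⟩
      exact ⟨2 * φ - 1, by push_cast; linear_combination -4 * hφ⟩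
    · rintro ⟨s, hs⟩
      push_cast at hs
      exact ⟨(1 + s) / 2, by field_simp; linear_combination -hs⟩
  rw [h, ← ZMod.exists_sq_eq_prime_iff_of_mod_four_eq_one (by norm_num) hp2,
    show (p : ZMod 5) = ((p % 5 : ℕ) : ZMod 5) from (ZMod.natCast_mod p 5).symm]
  have hlt : p % 5 < 5 := Nat.mod_lt _ (by norm_num)
  have h0 : p % 5 ≠ 0 := fun e => hp5 ((Nat.prime_dvd_prime_iff_eq Nat.prime_five hp.out).1
    (Nat.dvd_of_mod_eq_zero e)).symm
  exact key _ hlt h0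

/-- **The primes dividing no Lucas number.** -/
theorem not_dvdLucas_iff {p : ℕ} (hp : p.Prime) (hp2 : p ≠ 2) :
    ¬ DvdLucas p ↔ (p % 4 = 1 ∧ ¬ HasGolden p) ∨ ∃ t, Layer t p := by
  haveI : Fact p.Prime := ⟨hp⟩
  have hodd := Nat.odd_iff.1 (hp.odd_of_ne_two hp2)
  rcases (show p % 4 = 1 ∨ p % 4 = 3 by omega) with h1 | h3
  · by_cases h : HasGolden p
    · obtain ⟨φ, hφ⟩ := h
      rw [not_dvdLucas_iff_layer h1 hφ]
      exact ⟨Or.inr, fun e => e.resolve_left fun e => e.2 ⟨φ, hφ⟩⟩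
    · exact iff_of_true (not_dvdLucas_of_one hp h1 h) (Or.inl ⟨h1, h⟩)
  · refine iff_of_false (not_not.2 (dvdLucas_of_three hp h3)) ?_
    rintro (h | ⟨t, ht⟩)
    · omega
    · have := (Dvd.intro (2 ^ t) (by rw [← pow_add]; congr 1; omega) :
        2 ^ 2 ∣ 2 ^ (t + 2)).trans ht.1.1.1
      omega

end FA.LagariasLucas

end
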