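import Fermat.Agent.Root.SummaryCapelli
import Mathlib.NumberTheory.NumberField.Cyclotomic.Basic
import Mathlib.Algebra.Polynomial.SpecificDegree

/-!
# The degree of `ℚ(ζ_{2 ^ i}, φ ^ (1 / 2 ^ k))`

The ring of integers of `ℚ(ζ_{2 ^ i})` maps onto `ℤ/2`, so it contains no root of `X² - X - 1`;
so `5` and `1 + 2i` are no squares there, and the golden ratio is no square above it.
-/

set_option autoImplicit false
set_option linter.style.haveILetI false

noncomputable section

open Polynomial NumberField Module IntermediateField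

namespace FA.LagariasLucas

variable {L : Type} [Field L] [NumberField L] {i k : ℕ} {ζ φ α : L}

/-- No root of `X² - X - 1` in a `2`-power cyclotomic field. -/
theorem no_golden {K : Type} [Field K] [NumberField K] [IsCyclotomicExtension {2 ^ i} ℚ K]
    {z : K} (hz : IsPrimitiveRoot z (2 ^ i)) (x : K) : x ^ 2 ≠ x + 1 := fun hx => by
  obtain ⟨B, hB⟩ : ∃ B, B = hz.integralPowerBasisOfPrimePow := ⟨_, rfl⟩
  have hgen : minpoly ℤ B.gen = cyclotomic (2 ^ i) ℤ := by
    rw [hB, IsPrimitiveRoot.integralPowerBasisOfPrimePow_gen,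
      cyclotomic_eq_minpoly hz (NeZero.pos _),
      ← minpoly.algebraMap_eq (FaithfulSMul.algebraMap_injective (𝓞 K) K)]
    rfl
  have h1 : aeval (1 : ZMod 2) (minpoly ℤ B.gen) = 0 := by
    rw [hgen, aeval_def, eval₂_eq_eval_map, map_cyclotomic]
    rcases i with - | j
    · simp [cyclotomic_one]
    · rw [eval_one_cyclotomic_prime_pow]; rfl
  obtain ⟨g, -⟩ : ∃ g : 𝓞 K →ₐ[ℤ] ZMod 2, True := ⟨B.lift 1 h1, trivial⟩
  have hint : IsIntegral ℤ x := ⟨X ^ 2 - X - 1, by monicity!, by
    rw [← aeval_def]; simp [hx]⟩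
  obtain ⟨y, hy⟩ : ∃ y : 𝓞 K, (y : K) = x := ⟨⟨x, hint⟩, rfl⟩
  have hy2 : y ^ 2 = y + 1 := RingOfIntegers.ext (by
    simp only [map_pow, map_add, map_one, hy, hx])
  have := congrArg g hy2
  rw [map_pow, map_add, map_one] at this
  revert this
  generalize g y = w
  revert w
  decide

/-- `5` is no square. -/
theorem five_not_sq {K : Type} [Field K] [NumberField K] [IsCyclotomicExtension {2 ^ i} ℚ K]
    {z : K} (hz : IsPrimitiveRoot z (2 ^ i)) (s : K) : s ^ 2 ≠ 5 := fun hs =>
  no_golden hz ((1 + s) / 2) (by field_simp; linear_combination hs)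

/-- `1 + 2i` is no square. -/
theorem one_add_two_mul_not_sq {K : Type} [Field K] [NumberField K]
    [IsCyclotomicExtension {2 ^ i} ℚ K] {z : K} (hz : IsPrimitiveRoot z (2 ^ i)) {I : K}
    (hI : I ^ 2 = -1) (t : K) : t ^ 2 ≠ 1 + 2 * I := fun ht => by
  haveI : IsGalois ℚ K := IsCyclotomicExtension.isGalois {2 ^ i} ℚ K
  obtain ⟨σ, hσ⟩ : ∃ σ : K ≃ₐ[ℚ] K, σ I ≠ I := by
    by_contra hc
    push Not at hc
    obtain ⟨q, rfl⟩ := IntermediateField.mem_bot.1 ((IsGalois.mem_bot_iff_fixed I).2 hc)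
    rw [← map_pow, ← map_one (algebraMap ℚ K), ← map_neg,
      (algebraMap ℚ K).injective.eq_iff] at hI
    nlinarith [sq_nonneg q]
  have hσI : σ I = -I := (sq_eq_sq_iff_eq_or_eq_neg.1
    (show σ I ^ 2 = I ^ 2 by rw [← map_pow, hI, map_neg, map_one])).resolve_left hσ
  refine five_not_sq hz (t * σ t) ?_
  rw [mul_pow, ← map_pow, ht, map_add, map_one, map_mul, map_ofNat, hσI]
  linear_combination -4 * hI

/-- A square root of `-1` in `ℚ(ζ_{2 ^ i})`, `i ≥ 2`. -/
theorem exists_sqrt_neg_one {K : Type} [Field K] {z : K} (hi : 2 ≤ i)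
    (hz : IsPrimitiveRoot z (2 ^ i)) : ∃ I : K, I ^ 2 = -1 := by
  refine ⟨z ^ 2 ^ (i - 2), ?_⟩
  rw [← pow_mul, ← pow_succ]
  exact (hz.pow (by positivity) (by rw [← pow_succ, show i - 2 + 1 + 1 = i by omega])
    ).eq_neg_one_of_two_right

/-- **The degree.** -/
theorem finrank_eq (hki : k + 1 ≤ i) (hζ : IsPrimitiveRoot ζ (2 ^ i)) (hφ : φ ^ 2 = φ + 1)
    (hα : α ^ 2 ^ k = φ) (htop : adjoin ℚ {ζ, α} = ⊤) :
    finrank ℚ L = 2 ^ (i + k) := by
  obtain ⟨K, hK⟩ : ∃ K, K = adjoin ℚ {ζ} := ⟨_, rfl⟩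
  haveI : IsCyclotomicExtension {2 ^ i} ℚ K :=
    hK ▸ hζ.intermediateField_adjoin_isCyclotomicExtension ℚ
  have hζK : ζ ∈ K := hK ▸ mem_adjoin_simple_self ℚ ζ
  obtain ⟨z, hz'⟩ : ∃ z : K, (z : L) = ζ := ⟨⟨ζ, hζK⟩, rfl⟩
  have hz : IsPrimitiveRoot z (2 ^ i) := by
    refine IsPrimitiveRoot.of_map_of_injective (f := K.val) ?_ Subtype.val_injective
    rw [IntermediateField.coe_val, hz']
    exact hζ
  have hirr : Irreducible (X ^ 2 - X - 1 : (K)[X]) := by
    have hdeg : (X ^ 2 - X - 1 : (K)[X]).natDegree = 2 := by compute_degree!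
    rw [irreducible_iff_roots_eq_zero_of_degree_le_three (by omega) (by omega),
      Multiset.eq_zero_iff_forall_notMem]
    intro x hx
    rw [mem_roots (fun e => by rw [e, natDegree_zero] at hdeg; omega), IsRoot,
      eval_sub, eval_sub, eval_pow, eval_X, eval_one, sub_sub, sub_eq_zero] at hx
    exact no_golden hz x hx
  have hroot : aeval φ (X ^ 2 - X - 1 : (K)[X]) = 0 := by simp [hφ]
  have hmin : minpoly K φ = X ^ 2 - X - 1 :=
    (minpoly.eq_of_irreducible_of_monic hirr hroot (by monicity!)).symm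
  have hφint : IsIntegral K φ := ⟨_, by monicity!, hroot⟩
  have hd2 : finrank K K⟮φ⟯ = 2 := by
    rw [adjoin.finrank hφint, hmin]
    compute_degree!
  obtain ⟨f, hf⟩ : ∃ f : K⟮φ⟯, (f : L) = φ := ⟨⟨φ, mem_adjoin_simple_self K φ⟩, rfl⟩
  have hsq : 1 ≤ k → ∀ b : K⟮φ⟯, b ^ 2 ≠ f := fun hk b hb => by
    have hpd : (adjoin.powerBasis hφint).dim = 2 := by
      rw [adjoin.powerBasis_dim, hmin]; compute_degree!
    obtain ⟨r, hr, hbr⟩ := (adjoin.powerBasis hφint).exists_eq_aeval b
    obtain ⟨a, c, rfl⟩ := exists_eq_X_add_C_of_natDegree_le_one (p := r) (by omega)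
    have hb' : ((a : L) * φ + (c : L)) ^ 2 = φ := by
      have h := congrArg (fun u : K⟮φ⟯ => (u : L)) hb
      rw [hbr] at h
      simpa [hf] using h
    have hlin : ∀ u v : K, (u : L) * φ + (v : L) = 0 → u = 0 ∧ v = 0 := fun u v h => by
      rcases eq_or_ne u 0 with rfl | hu
      · exact ⟨rfl, Subtype.ext (by simpa using h)⟩
      · exfalso
        refine no_golden hz (-v / u) (Subtype.ext ?_)
        have hu' : (u : L) ≠ 0 := fun e => hu (Subtype.ext e)
        have he : ((-v / u : K) : L) = φ := by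
          push_cast
          rw [div_eq_iff hu']
          linear_combination -h
        push_cast at he ⊢
        rw [he, hφ]
    obtain ⟨h1, h2⟩ := hlin (a ^ 2 + (a * c + a * c) - 1) (a ^ 2 + c ^ 2) (by
      push_cast
      linear_combination hb' - (a : L) ^ 2 * hφ)
    have ha : a ≠ 0 := fun e => by rw [e] at h1; norm_num at h1
    have hca : (c / a) ^ 2 = -1 := by
      rw [div_pow, div_eq_iff (pow_ne_zero 2 ha)]
      linear_combination h2
    have key : (1 / a) ^ 2 = 1 + 2 * (c / a) := by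
      field_simp
      linear_combination -h1
    exact one_add_two_mul_not_sq hz hca (1 / a) key
  have hdα : finrank K⟮φ⟯ K⟮φ⟯⟮α⟯ = 2 ^ k := by
    refine FA.Summary.radical_degree (a := f) (by positivity) (by rw [hα]; exact hf.symm)
      (fun p hp hpd b => ?_) fun h4 b hb => ?_
    · rcases Nat.eq_zero_or_pos k with rfl | hk
      · exact absurd (Nat.eq_one_of_dvd_one (by simpa using hpd)) hp.ne_one
      obtain rfl := (Nat.prime_dvd_prime_iff_eq hp Nat.prime_two).1 (hp.dvd_of_dvd_pow hpd)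
      exact hsq hk b
    · have hk : 2 ≤ k :=
        (Nat.pow_dvd_pow_iff_le_right (x := 2) (k := 2) (by norm_num)).1 h4
      obtain ⟨I, hI⟩ := exists_sqrt_neg_one (show 2 ≤ i by omega) hz
      refine hsq (by omega) (2 * algebraMap K K⟮φ⟯ I * b ^ 2) ?_
      have hI' : algebraMap K K⟮φ⟯ I ^ 2 = -1 := by rw [← map_pow, hI, map_neg, map_one]
      linear_combination 4 * b ^ 4 * hI' - hb
  have htopα : (K⟮φ⟯⟮α⟯ : IntermediateField K⟮φ⟯ L) = ⊤ := by
    apply IntermediateField.restrictScalars_injective ℚ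
    rw [IntermediateField.restrictScalars_top, eq_top_iff, ← htop, adjoin_le_iff]
    intro r hr
    rcases hr with rfl | hr
    · rw [SetLike.mem_coe, IntermediateField.mem_restrictScalars]
      exact IntermediateField.algebraMap_mem _
        (algebraMap K K⟮φ⟯ z) |> (fun h => by
          convert h using 1
          exact hz'.symm)
    · rw [Set.mem_singleton_iff] at hr
      rw [hr, SetLike.mem_coe, IntermediateField.mem_restrictScalars]
      exact mem_adjoin_simple_self _ α
  rw [htopα, IntermediateField.finrank_top'] at hdα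
  rw [← Module.finrank_mul_finrank ℚ K L, ← Module.finrank_mul_finrank K K⟮φ⟯ L, hd2, hdα,
    IsCyclotomicExtension.Rat.finrank (2 ^ i) K,
    Nat.totient_prime_pow Nat.prime_two (by omega)]
  rw [Nat.succ_sub_one, mul_one, ← mul_assoc, ← pow_succ, ← pow_add]
  congr 1
  omega

end FA.LagariasLucas

end
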