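import Fermat.Agent.LagariasLucas.Degree
import Fermat.Agent.OdoniJones.Frobenius
import Fermat.Agent.ArtinAllBases.Field
import Mathlib.RingTheory.Polynomial.Cyclotomic.Roots

/-!
# The primes with a golden power residue

For `k < i` the odd primes `p ≡ 1 (mod 2 ^ i)` modulo which a root of `X² - X - 1` is a `2 ^ k`th
power are those modulo which `Φ_{2 ^ i}` and `X ^ 2 ^ (k + 1) - X ^ 2 ^ k - 1` have roots; only the
identity fixes a root of each, so they have density `1 / 2 ^ (i + k)`.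
-/

set_option autoImplicit false
set_option linter.style.haveILetI false

noncomputable section

open Polynomial NumberField
open Fermat.Agent.RootsModP (rootsMod fixedRoots exists_bad_primes_roots fixedRoots_conj)
open FA.HasseEvenOrder (HasPrimeDensity hasPrimeDensity_of_frobenius)
open scoped Classical

namespace FA.LagariasLucas

/-- `X ^ 2 ^ (k + 1) - X ^ 2 ^ k - 1`. -/
def goldPoly (k : ℕ) : ℤ[X] := X ^ 2 ^ (k + 1) - (X ^ 2 ^ k + 1)

theorem monic_goldPoly (k : ℕ) : (goldPoly k).Monic := by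
  refine monic_X_pow_sub ?_
  rw [← C_1, degree_X_pow_add_C (Nat.two_pow_pos k)]
  exact_mod_cast Nat.pow_lt_pow_right (by norm_num) (Nat.lt_succ_self k)

theorem eval_goldPoly {R : Type} [CommRing R] (k : ℕ) (x : R) :
    ((goldPoly k).map (Int.castRingHom R)).eval x =
      (x ^ 2 ^ k) ^ 2 - (x ^ 2 ^ k + 1) := by
  simp [goldPoly, pow_succ, pow_mul]

/-- `p ≡ 1 (mod 2 ^ i)` and a root of `X² - X - 1` is a `2 ^ k`th power residue. -/
def GoldPow (i k p : ℕ) : Prop :=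
  2 ^ i ∣ p - 1 ∧ ∃ φ : ZMod p, φ ^ 2 = φ + 1 ∧ φ ^ ((p - 1) / 2 ^ k) = 1

theorem exists_generator {p : ℕ} [hp : Fact p.Prime] :
    ∃ g : ZMod p, IsPrimitiveRoot g (p - 1) ∧ ∀ x : ZMod p, x ≠ 0 → ∃ e, g ^ e = x := by
  haveI : NeZero (p - 1) := ⟨(Nat.sub_pos_of_lt hp.out.one_lt).ne'⟩
  obtain ⟨g, hg⟩ := IsCyclic.exists_ofOrder_eq_natCard (α := (ZMod p)ˣ)
  rw [Nat.card_eq_fintype_card, ZMod.card_units] at hg
  have hg' : IsPrimitiveRoot (g : ZMod p) (p - 1) := by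
    rw [← hg, ← orderOf_units]
    exact IsPrimitiveRoot.orderOf _
  refine ⟨g, hg', fun x hx => ?_⟩
  obtain ⟨e, -, he⟩ := hg'.eq_pow_of_pow_eq_one (ξ := x) (ZMod.pow_card_sub_one_eq_one hx)
  exact ⟨e, he⟩

theorem roots_iff {i k p : ℕ} (hki : k + 1 ≤ i) (hp : p.Prime) (hp2 : ¬ p ∣ 2) :
    (rootsMod (cyclotomic (2 ^ i) ℤ) p ≠ 0 ∧ rootsMod (goldPoly k) p ≠ 0) ↔ GoldPow i k p := by
  haveI : Fact p.Prime := ⟨hp⟩
  haveI : NeZero ((2 ^ i : ℕ) : ZMod p) := ⟨by
    rw [Ne, ZMod.natCast_eq_zero_iff]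
    exact fun h => hp2 (hp.dvd_of_dvd_pow h)⟩
  rw [rootsMod, rootsMod, ← pos_iff_ne_zero, ← pos_iff_ne_zero, Set.ncard_pos (Set.toFinite _),
    Set.ncard_pos (Set.toFinite _)]
  simp only [Set.Nonempty, Set.mem_ofPred_eq, map_cyclotomic, eval_goldPoly, sub_eq_zero]
  obtain ⟨g, hg, hgen⟩ := exists_generator (p := p)
  constructor
  · rintro ⟨⟨z, hz⟩, x, hx⟩
    have hz' : IsPrimitiveRoot z (2 ^ i) := isRoot_cyclotomic_iff.1 hz
    have hdvd : 2 ^ i ∣ p - 1 := (hz'.pow_eq_one_iff_dvd _).1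
      (ZMod.pow_card_sub_one_eq_one (hz'.ne_zero (by positivity)))
    refine ⟨hdvd, x ^ 2 ^ k, hx, ?_⟩
    have hx0 : x ≠ 0 := fun e => by
      rw [e, zero_pow (Nat.two_pow_pos k).ne', zero_pow two_ne_zero, zero_add] at hx
      exact zero_ne_one hx
    rw [← pow_mul, Nat.mul_div_cancel' ((pow_dvd_pow 2 (by omega)).trans hdvd),
      ZMod.pow_card_sub_one_eq_one hx0]
  · rintro ⟨hdvd, φ, hφ, hφk⟩
    have hk : 2 ^ k ∣ p - 1 := (pow_dvd_pow 2 (by omega : k ≤ i)).trans hdvd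
    refine ⟨⟨g ^ ((p - 1) / 2 ^ i), isRoot_cyclotomic_iff.2
      (hg.pow (Nat.sub_pos_of_lt hp.one_lt) (Nat.div_mul_cancel hdvd).symm)⟩, ?_⟩
    have hφ0 : φ ≠ 0 := fun e => by simp [e] at hφ
    obtain ⟨e, rfl⟩ := hgen φ hφ0
    rw [← pow_mul, hg.pow_eq_one_iff_dvd] at hφk
    obtain ⟨c, rfl⟩ : 2 ^ k ∣ e := by
      obtain ⟨r, hr⟩ := hk
      have hr0 : r ≠ 0 := fun h => (Nat.sub_pos_of_lt hp.one_lt).ne' (by rw [hr, h, mul_zero])
      rw [hr, Nat.mul_div_cancel_left _ (Nat.two_pow_pos k)] at hφk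
      exact (Nat.mul_dvd_mul_iff_right (Nat.pos_of_ne_zero hr0)).1 hφk
    refine ⟨g ^ c, ?_⟩
    rw [← pow_mul g c, mul_comm c]
    exact hφ

/-- The product whose splitting field is used. -/
def lucasPoly (i k : ℕ) : ℚ[X] :=
  cyclotomic (2 ^ i) ℚ * (goldPoly k).map (Int.castRingHom ℚ)

/-- The splitting field. -/
abbrev LucasField (i k : ℕ) : Type := (lucasPoly i k).SplittingField

instance lucasField_numberField (i k : ℕ) : NumberField (LucasField i k) where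

instance lucasField_splitting (i k : ℕ) :
    IsSplittingField ℚ (LucasField i k) (lucasPoly i k) := by
  convert Polynomial.IsSplittingField.splittingField (lucasPoly i k) using 2
  exact Subsingleton.elim _ _

instance lucasField_isGalois (i k : ℕ) : IsGalois ℚ (LucasField i k) :=
  haveI := Normal.of_isSplittingField (E := LucasField i k) (lucasPoly i k)
  ⟨⟩

theorem separable_goldPoly (k : ℕ) : ((goldPoly k).map (Int.castRingHom ℚ)).Separable := by
  rw [← Polynomial.separable_map (algebraMap ℚ ℝ), Polynomial.map_map,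
    Subsingleton.elim ((algebraMap ℚ ℝ).comp (Int.castRingHom ℚ)) (Int.castRingHom ℝ)]
  have h : (goldPoly k).map (Int.castRingHom ℝ) =
      (X ^ 2 ^ k - C ((1 + √5) / 2)) * (X ^ 2 ^ k - C ((1 - √5) / 2)) := by
    refine Polynomial.funext fun x => ?_
    rw [eval_goldPoly, eval_mul, eval_sub, eval_sub, eval_pow, eval_X, eval_C, eval_C]
    linear_combination (1 / 4 : ℝ) * Real.sq_sqrt (show (0 : ℝ) ≤ 5 by norm_num)
  have h5 : (0 : ℝ) < √5 := by positivity
  have h5' : 1 < √5 := by rw [Real.lt_sqrt] <;> norm_num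
  have hn : ((2 ^ k : ℕ) : ℝ) ≠ 0 := by positivity
  rw [h]
  refine (separable_X_pow_sub_C _ hn (by linarith)).mul (separable_X_pow_sub_C _ hn ?_) ?_
  · exact div_ne_zero (by linarith) two_ne_zero
  · refine ⟨C (-(1 / √5)), C (1 / √5), ?_⟩
    have e : C (-(1 / √5)) * (X ^ 2 ^ k - C ((1 + √5) / 2)) +
        C (1 / √5) * (X ^ 2 ^ k - C ((1 - √5) / 2)) =
          C (1 / √5) * C ((1 + √5) / 2 - (1 - √5) / 2) := by
      rw [map_neg, map_sub]; ring
    rw [e, ← map_mul, show 1 / √5 * ((1 + √5) / 2 - (1 - √5) / 2) = 1 by field_simp; ring, map_one]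

section Field

variable {L : Type} [Field L] [NumberField L] {i k : ℕ} {ζ α : L}

theorem mem_adjoin_root (hki : k + 1 ≤ i) (hζ : IsPrimitiveRoot ζ (2 ^ i))
    (hα : (α ^ 2 ^ k) ^ 2 = α ^ 2 ^ k + 1) {r : L} (hr : (r ^ 2 ^ k) ^ 2 = r ^ 2 ^ k + 1) :
    r ∈ IntermediateField.adjoin ℚ {ζ, α} := by
  have hα0 : α ≠ 0 := fun e => by simp [e] at hα
  have hζm : ζ ∈ IntermediateField.adjoin ℚ {ζ, α} := IntermediateField.subset_adjoin ℚ _ (by simp)
  have hαm : α ∈ IntermediateField.adjoin ℚ {ζ, α} := IntermediateField.subset_adjoin ℚ _ (by simp)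
  obtain ⟨c, hc⟩ : 2 ^ (k + 1) ∣ 2 ^ i := pow_dvd_pow 2 hki
  have hmem : ∀ w : L, w ^ 2 ^ (k + 1) = 1 → w ∈ IntermediateField.adjoin ℚ {ζ, α} :=
    fun w hw => by
    obtain ⟨j, -, hj⟩ := hζ.eq_pow_of_pow_eq_one (ξ := w) (by rw [hc, pow_mul, hw, one_pow])
    exact hj ▸ pow_mem hζm j
  have h : (r ^ 2 ^ k - α ^ 2 ^ k) * (r ^ 2 ^ k + α ^ 2 ^ k - 1) = 0 := by
    linear_combination hr - hα
  rcases mul_eq_zero.1 h with h1 | h1
  · rw [sub_eq_zero] at h1
    rw [show r = r / α * α by field_simp]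
    refine mul_mem (hmem _ ?_) hαm
    rw [div_pow, pow_succ, pow_mul, pow_mul, h1, div_self]
    exact pow_ne_zero _ (pow_ne_zero _ hα0)
  · rw [show r = r * α / α by field_simp]
    refine div_mem (hmem _ ?_) hαm
    rw [pow_succ, pow_mul, mul_pow,
      show r ^ 2 ^ k * α ^ 2 ^ k = -1 by linear_combination (α ^ 2 ^ k) * h1 - hα]
    norm_num

theorem adjoin_eq_top [IsSplittingField ℚ L (lucasPoly i k)] (hki : k + 1 ≤ i)
    (hζ : IsPrimitiveRoot ζ (2 ^ i)) (hα : (α ^ 2 ^ k) ^ 2 = α ^ 2 ^ k + 1) :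
    IntermediateField.adjoin ℚ {ζ, α} = ⊤ := by
  refine IntermediateField.toSubalgebra_injective ?_
  rw [IntermediateField.top_toSubalgebra, eq_top_iff,
    ← IsSplittingField.adjoin_rootSet L (lucasPoly i k), Algebra.adjoin_le_iff]
  intro r hr
  obtain ⟨-, hr⟩ := mem_rootSet.1 hr
  rw [lucasPoly, map_mul, mul_eq_zero] at hr
  rcases hr with hr | hr
  · rw [aeval_def, eval₂_eq_eval_map, map_cyclotomic] at hr
    obtain ⟨j, -, hj⟩ := hζ.eq_pow_of_pow_eq_one (ξ := r)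
      (isRoot_cyclotomic_iff.1 hr : IsPrimitiveRoot r (2 ^ i)).pow_eq_one
    exact hj ▸ pow_mem (IntermediateField.subset_adjoin ℚ _ (by simp)) j
  · rw [aeval_def, eval₂_eq_eval_map, Polynomial.map_map,
      Subsingleton.elim ((algebraMap ℚ L).comp (Int.castRingHom ℚ)) (Int.castRingHom L),
      eval_goldPoly, sub_eq_zero] at hr
    exact mem_adjoin_root hki hζ hα hr

theorem mem_rootSet_cyclotomic {x : L} :
    x ∈ ((cyclotomic (2 ^ i) ℤ).map (Int.castRingHom ℚ)).rootSet L ↔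
      IsPrimitiveRoot x (2 ^ i) := by
  rw [mem_rootSet, map_cyclotomic, aeval_def, eval₂_eq_eval_map, map_cyclotomic,
    and_iff_right (cyclotomic_ne_zero _ _)]
  exact isRoot_cyclotomic_iff

theorem mem_rootSet_goldPoly {x : L} :
    x ∈ ((goldPoly k).map (Int.castRingHom ℚ)).rootSet L ↔
      (x ^ 2 ^ k) ^ 2 = x ^ 2 ^ k + 1 := by
  rw [mem_rootSet, and_iff_right ((monic_goldPoly k).map _).ne_zero, aeval_def, eval₂_eq_eval_map,
    Polynomial.map_map,
    Subsingleton.elim ((algebraMap ℚ L).comp (Int.castRingHom ℚ)) (Int.castRingHom L),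
    eval_goldPoly, sub_eq_zero]

end Field

/-- **The density of `GoldPow`.** -/
theorem hasPrimeDensity_goldPow {i k : ℕ} (hki : k + 1 ≤ i) :
    HasPrimeDensity (GoldPow i k) (1 / 2 ^ (i + k)) := by
  obtain ⟨L, hL⟩ : ∃ L, L = LucasField i k := ⟨_, rfl⟩
  subst hL
  have hsplit : ((lucasPoly i k).map (algebraMap ℚ (LucasField i k))).Splits :=
    IsSplittingField.splits (LucasField i k) (lucasPoly i k)
  have hne : (lucasPoly i k).map (algebraMap ℚ (LucasField i k)) ≠ 0 :=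
    (Polynomial.map_ne_zero_iff (algebraMap ℚ (LucasField i k)).injective).2
      (mul_ne_zero (cyclotomic_ne_zero _ _) ((monic_goldPoly k).map _).ne_zero)
  have hs1 : (((cyclotomic (2 ^ i) ℤ).map (Int.castRingHom ℚ)).map
      (algebraMap ℚ (LucasField i k))).Splits :=
    hsplit.of_dvd hne (Polynomial.map_dvd _ (by rw [map_cyclotomic]; exact dvd_mul_right _ _))
  have hs2 : (((goldPoly k).map (Int.castRingHom ℚ)).map
      (algebraMap ℚ (LucasField i k))).Splits :=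
    hsplit.of_dvd hne (Polynomial.map_dvd _ (dvd_mul_left _ _))
  obtain ⟨N₁, hN₁0, hN₁⟩ := exists_bad_primes_roots (cyclotomic.monic (2 ^ i) ℤ)
    (by rw [map_cyclotomic]; exact separable_cyclotomic (2 ^ i) ℚ) hs1
  obtain ⟨N₂, hN₂0, hN₂⟩ := exists_bad_primes_roots (monic_goldPoly k) (separable_goldPoly k) hs2
  obtain ⟨ζ, hζ⟩ := hs1.exists_eval_eq_zero (by
    rw [map_cyclotomic, map_cyclotomic, degree_cyclotomic, Ne, Nat.cast_eq_zero]
    exact (Nat.totient_pos.2 (Nat.two_pow_pos i)).ne')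
  rw [map_cyclotomic, map_cyclotomic] at hζ
  replace hζ : IsPrimitiveRoot ζ (2 ^ i) := isRoot_cyclotomic_iff.1 hζ
  obtain ⟨α, hα⟩ := hs2.exists_eval_eq_zero (by
    rw [degree_map, degree_eq_natDegree ((monic_goldPoly k).map _).ne_zero, Ne, Nat.cast_eq_zero,
      (monic_goldPoly k).natDegree_map]
    intro h0
    have := (monic_goldPoly k).natDegree_eq_zero.1 h0
    have h1 := congrArg (Polynomial.eval (0 : ℤ)) this
    simp [goldPoly] at h1)
  rw [Polynomial.map_map, Subsingleton.elim ((algebraMap ℚ (LucasField i k)).comp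
    (Int.castRingHom ℚ)) (Int.castRingHom (LucasField i k)), eval_goldPoly, sub_eq_zero] at hα
  have hd := hasPrimeDensity_of_frobenius (L := LucasField i k)
    (P := fun p => rootsMod (cyclotomic (2 ^ i) ℤ) p ≠ 0 ∧ rootsMod (goldPoly k) p ≠ 0)
    (C := fun σ => fixedRoots (cyclotomic (2 ^ i) ℤ) σ ≠ 0 ∧ fixedRoots (goldPoly k) σ ≠ 0)
    (fun g x hg => by rw [fixedRoots_conj, fixedRoots_conj]; exact hg) (mul_ne_zero hN₁0 hN₂0)
    fun q hq hd Q hQ hqQ τ hτ => by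
      rw [hN₁ q hq (fun e => hd (e.mul_right _)) Q hQ hqQ τ hτ,
        hN₂ q hq (fun e => hd (e.mul_left _)) Q hQ hqQ τ hτ]
  have hone : {σ : LucasField i k ≃ₐ[ℚ] LucasField i k |
      fixedRoots (cyclotomic (2 ^ i) ℤ) σ ≠ 0 ∧ fixedRoots (goldPoly k) σ ≠ 0} = {1} := by
    refine Set.eq_singleton_iff_unique_mem.2 ⟨?_, fun σ ⟨h1, h2⟩ => ?_⟩
    · refine ⟨Set.ncard_ne_zero_of_mem ⟨mem_rootSet_cyclotomic.2 hζ, rfl⟩
        ((rootSet_finite _ _).subset fun x hx => hx.1),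
        Set.ncard_ne_zero_of_mem ⟨mem_rootSet_goldPoly.2 hα, rfl⟩
        ((rootSet_finite _ _).subset fun x hx => hx.1)⟩
    · obtain ⟨z, hz, hσz⟩ := Set.nonempty_of_ncard_ne_zero h1
      obtain ⟨r, hr, hσr⟩ := Set.nonempty_of_ncard_ne_zero h2
      exact FA.ArtinAll.aut_eq_of_gens
        (adjoin_eq_top hki (mem_rootSet_cyclotomic.1 hz) (mem_rootSet_goldPoly.1 hr)) hσz hσr
  rw [hone, Nat.card_unique, IsGalois.card_aut_eq_finrank,
    finrank_eq hki hζ (φ := α ^ 2 ^ k) hα rfl (adjoin_eq_top hki hζ hα)] at hd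
  push_cast at hd
  exact hd.congr_off two_ne_zero fun p hp hp2 => roots_iff hki hp hp2

end FA.LagariasLucas

end
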