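import Fermat.Agent.LagariasLucas.Criterion
import Fermat.Agent.HasseEvenOrder.Main

/-!
# Lagarias' theorem on the Lucas numbers

The primes dividing no Lucas number are, apart from the exception `5`, the inert primes
`p ≡ 1 (mod 4)`, of density `1 / 4`, and the layers, of density `4 ^ (-t - 2)`; together `1 / 3`.
-/

set_option autoImplicit false
set_option linter.style.haveILetI false

noncomputable section

open Filter Topology
open FA.HasseEvenOrder (HasPrimeDensity primeCount PowCond hasPrimeDensity_powCond dens_zero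
  hasPrimeDensity_true primeCount_mono primeCount_add)
open scoped Classical

namespace FA.LagariasLucas

/-- The primes `p ≡ 1 (mod 2 ^ i)`. -/
theorem hasPrimeDensity_dvd_sub_one (i : ℕ) :
    HasPrimeDensity (fun p => 2 ^ i ∣ p - 1) (1 / (2 ^ i).totient) := by
  have h := hasPrimeDensity_powCond (a := 2) two_ne_zero Nat.prime_two (Nat.zero_le i)
  rw [dens_zero two_ne_zero Nat.prime_two] at h
  refine h.congr_off two_ne_zero fun p hp hp2 => ⟨fun h => h.1, fun h => ⟨h, ?_⟩⟩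
  haveI : Fact p.Prime := ⟨hp⟩
  rw [← ZMod.intCast_zmod_eq_zero_iff_dvd, pow_zero, Nat.div_one, Int.cast_sub, Int.cast_pow,
    Int.cast_one, Int.cast_ofNat, ZMod.pow_card_sub_one_eq_one fun e => hp2
      ((ZMod.natCast_eq_zero_iff 2 p).1 (by exact_mod_cast e)), sub_self]

theorem goldPow_mono {i k p : ℕ} (h : GoldPow (i + 1) k p) : GoldPow i k p :=
  ⟨(pow_dvd_pow 2 (Nat.le_succ i)).trans h.1, h.2⟩

theorem goldPow_le {i k p : ℕ} [Fact p.Prime] (hki : k + 2 ≤ i) (h : GoldPow i (k + 1) p) :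
    GoldPow i k p := by
  obtain ⟨hd, φ, hφ, hp⟩ := h
  obtain ⟨c, hc⟩ := (pow_dvd_pow 2 (show k + 1 ≤ i by omega)).trans hd
  refine ⟨hd, φ, hφ, ?_⟩
  rw [hc, Nat.mul_div_cancel_left _ (Nat.two_pow_pos _)] at hp
  rw [hc, pow_succ, mul_assoc, Nat.mul_div_cancel_left _ (Nat.two_pow_pos _), mul_comm, pow_mul,
    hp, one_pow]

theorem hasPrimeDensity_goldPow_diff {i k : ℕ} (hki : k + 2 ≤ i) :
    HasPrimeDensity (fun p => GoldPow i k p ∧ ¬ GoldPow i (k + 1) p) (1 / 2 ^ (i + k + 1)) := by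
  have h := (hasPrimeDensity_goldPow (show k + 1 ≤ i by omega)).diff (hasPrimeDensity_goldPow hki)
    fun p hp hq => haveI : Fact p.Prime := ⟨hp⟩; goldPow_le hki hq
  convert h using 2
  rw [show i + (k + 1) = i + k + 1 from rfl, pow_succ]
  field_simp
  ring

theorem hasPrimeDensity_layer (t : ℕ) : HasPrimeDensity (Layer t) (1 / 4 ^ (t + 2)) := by
  have h := (hasPrimeDensity_goldPow_diff (le_refl (t + 2))).diff
    (hasPrimeDensity_goldPow_diff (show t + 2 ≤ t + 3 by omega))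
    fun p _ hq => ⟨goldPow_mono hq.1, fun hb => hq.2 ⟨hq.1.1, hb.2⟩⟩
  have e : (1 : ℝ) / 4 ^ (t + 2) = 1 / 2 ^ (t + 2 + t + 1) - 1 / 2 ^ (t + 3 + t + 1) := by
    rw [show (4 : ℝ) = 2 ^ 2 by norm_num, ← pow_mul,
      show t + 3 + t + 1 = 2 * (t + 2) by omega,
      show t + 2 + t + 1 = 2 * t + 3 by omega, show 2 * (t + 2) = 2 * t + 3 + 1 by omega,
      pow_succ _ (2 * t + 3)]
    field_simp
    ring
  rw [e]
  exact h

theorem hasPrimeDensity_inert :
    HasPrimeDensity (fun p => p % 4 = 1 ∧ ¬ HasGolden p) (1 / 4) := by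
  have h := (hasPrimeDensity_dvd_sub_one 2).diff
    (hasPrimeDensity_goldPow (show 0 + 1 ≤ 2 by norm_num)) fun p _ hq => hq.1
  rw [show (1 : ℝ) / (Nat.totient (2 ^ 2) : ℕ) - 1 / 2 ^ (2 + 0) = 1 / 4 by
    rw [show Nat.totient (2 ^ 2) = 2 by decide]; norm_num] at h
  refine h.congr fun p hp => ?_
  haveI : Fact p.Prime := ⟨hp⟩
  have := hp.two_le
  constructor
  · rintro ⟨hd, hg⟩
    refine ⟨by omega, fun ⟨φ, hφ⟩ => hg ⟨hd, φ, hφ, ?_⟩⟩
    rw [pow_zero, Nat.div_one]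
    exact ZMod.pow_card_sub_one_eq_one fun e => by simp [e] at hφ
  · rintro ⟨h1, hg⟩
    exact ⟨by omega, fun ⟨_, φ, hφ, _⟩ => hg ⟨φ, hφ⟩⟩

/-- The first `J` layers with the inert primes. -/
theorem hasPrimeDensity_head (J : ℕ) :
    HasPrimeDensity (fun p => (p % 4 = 1 ∧ ¬ HasGolden p) ∨ ∃ t < J, Layer t p)
      (1 / 4 + ∑ t ∈ Finset.range J, (1 / 4 ^ (t + 2) : ℝ)) := by
  induction J with
  | zero => simpa using hasPrimeDensity_inert
  | succ J ih =>
    rw [Finset.sum_range_succ, ← add_assoc]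
    refine (ih.union (hasPrimeDensity_layer J) fun p hp h => ?_).congr fun p _ => ⟨?_, ?_⟩
    · haveI : Fact p.Prime := ⟨hp⟩
      rintro (h' | ⟨t, ht, h'⟩)
      · exact h'.2 (let ⟨φ, hφ, _⟩ := h.1.1.2; ⟨φ, hφ⟩)
      · exact ht.ne (layer_unique h' h)
    · rintro ((h | ⟨t, ht, h⟩) | h)
      · exact Or.inl h
      · exact Or.inr ⟨t, ht.trans (Nat.lt_succ_self J), h⟩
      · exact Or.inr ⟨J, Nat.lt_succ_self J, h⟩
    · rintro (h | ⟨t, ht, h⟩)
      · exact Or.inl (Or.inl h)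
      · rcases (Nat.lt_succ_iff.1 ht).lt_or_eq with h' | rfl
        · exact Or.inl (Or.inr ⟨t, h', h⟩)
        · exact Or.inr h

/-- **The primes dividing no Lucas number have density `1 / 3`.** -/
theorem hasPrimeDensity_not_dvdLucas : HasPrimeDensity (fun p => ¬ DvdLucas p) (1 / 3) := by
  refine HasPrimeDensity.congr_off (P := fun p => (p % 4 = 1 ∧ ¬ HasGolden p) ∨ ∃ t, Layer t p) ?_
    two_ne_zero fun p hp hp2 => (not_dvdLucas_iff hp fun e => hp2 (e ▸ dvd_rfl)).symm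
  obtain ⟨f, hf⟩ : ∃ f : (ℕ → Prop) → ℕ → ℝ,
      ∀ P N, f P N = (primeCount P N : ℝ) * Real.log N / N := ⟨_, fun _ _ => rfl⟩
  obtain ⟨A, hA⟩ : ∃ A : ℕ → Prop, ∀ p, A p ↔ (p % 4 = 1 ∧ ¬ HasGolden p) ∨ ∃ t, Layer t p :=
    ⟨_, fun _ => Iff.rfl⟩
  have hlow : ∀ J N : ℕ, f (fun p => (p % 4 = 1 ∧ ¬ HasGolden p) ∨ ∃ t < J, Layer t p) N ≤
      f A N := fun J N => by
    rw [hf, hf]
    exact div_le_div_of_nonneg_right (mul_le_mul_of_nonneg_right (Nat.cast_le.2
      (primeCount_mono (fun p _ h => (hA p).2 (h.imp id fun ⟨t, _, h⟩ => ⟨t, h⟩)) N))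
      (Real.log_natCast_nonneg N)) (Nat.cast_nonneg N)
  have hup : ∀ J N : ℕ, f A N ≤
      f (fun p => (p % 4 = 1 ∧ ¬ HasGolden p) ∨ ∃ t < J, Layer t p) N +
        f (fun p => 2 ^ (J + 2) ∣ p - 1) N := fun J N => by
    rw [hf, hf, hf, ← add_div, ← add_mul, ← Nat.cast_add]
    refine div_le_div_of_nonneg_right (mul_le_mul_of_nonneg_right (Nat.cast_le.2 ?_)
      (Real.log_natCast_nonneg N)) (Nat.cast_nonneg N)
    rw [← primeCount_add A (fun p => (p % 4 = 1 ∧ ¬ HasGolden p) ∨ ∃ t < J, Layer t p)]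
    refine Nat.add_le_add (primeCount_mono (fun p _ h => h.2) N)
      (primeCount_mono (fun p _ h => ?_) N)
    rcases (hA p).1 h.1 with h' | ⟨t, ht⟩
    · exact absurd (Or.inl h') h.2
    · exact (pow_dvd_pow 2 (Nat.add_le_add_right
        (not_lt.1 fun hlt => h.2 (Or.inr ⟨t, hlt, ht⟩)) 2)).trans ht.1.1.1
  obtain ⟨c, hc⟩ : ∃ c : ℕ → ℝ, ∀ J, c J = 1 / 4 + ∑ t ∈ Finset.range J, (1 / 4 ^ (t + 2) : ℝ) :=
    ⟨_, fun _ => rfl⟩
  have hclim : Tendsto c atTop (𝓝 (1 / 3)) := by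
    have hsum := (((hasSum_geometric_of_lt_one (show (0 : ℝ) ≤ 1 / 4 by norm_num)
      (by norm_num)).mul_left (1 / 16)).tendsto_sum_nat).const_add (1 / 4)
    rw [show (1 : ℝ) / 4 + 1 / 16 * (1 - 1 / 4)⁻¹ = 1 / 3 by norm_num] at hsum
    refine hsum.congr fun J => ?_
    rw [hc]
    refine congrArg _ (Finset.sum_congr rfl fun t _ => ?_)
    rw [div_pow, one_pow, pow_add]
    ring
  have ht : Tendsto (fun J : ℕ => (1 : ℝ) / ((2 ^ (J + 2)).totient : ℕ)) atTop (𝓝 0) := by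
    have h := (tendsto_pow_atTop_nhds_zero_of_lt_one (r := (1 / 2 : ℝ)) (by norm_num)
      (by norm_num)).const_mul (1 / 2 : ℝ)
    rw [mul_zero] at h
    refine h.congr fun J => ?_
    rw [Nat.totient_prime_pow Nat.prime_two (by omega), show J + 2 - 1 = J + 1 by omega,
      show 2 - 1 = 1 from rfl, mul_one,
      Nat.cast_pow, Nat.cast_ofNat, pow_succ, div_pow, one_pow]
    ring
  have hh : ∀ J, Tendsto (f fun p => (p % 4 = 1 ∧ ¬ HasGolden p) ∨ ∃ t < J, Layer t p) atTop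
      (𝓝 (c J)) := fun J =>
    Filter.Tendsto.congr (fun N => (hf _ N).symm) (hc J ▸ hasPrimeDensity_head J)
  have htl : ∀ J, Tendsto (f fun p => 2 ^ (J + 2) ∣ p - 1) atTop
      (𝓝 (1 / ((2 ^ (J + 2)).totient : ℕ))) := fun J =>
    Filter.Tendsto.congr (fun N => (hf _ N).symm) (hasPrimeDensity_dvd_sub_one (J + 2))
  refine HasPrimeDensity.congr (P := A) ?_ fun p _ => hA p
  refine Tendsto.congr (fun N => hf _ N) (tendsto_order.2 ⟨fun b hb => ?_, fun b hb => ?_⟩)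
  · obtain ⟨J, hJ⟩ := (hclim.eventually (eventually_gt_nhds hb)).exists
    filter_upwards [(hh J).eventually (eventually_gt_nhds hJ)] with N hN
    exact hN.trans_le (hlow J N)
  · have h := hclim.add ht
    rw [add_zero] at h
    obtain ⟨J, hJ⟩ := (h.eventually (eventually_lt_nhds hb)).exists
    filter_upwards [((hh J).add (htl J)).eventually (eventually_lt_nhds hJ)] with N hN
    exact (hup J N).trans_lt hN

/-- **Lagarias: the primes dividing a Lucas number have density `2 / 3`.** -/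
theorem hasPrimeDensity_dvdLucas : HasPrimeDensity DvdLucas (2 / 3) := by
  have h := hasPrimeDensity_true.diff hasPrimeDensity_not_dvdLucas fun _ _ _ => trivial
  rw [show (1 : ℝ) - 1 / 3 = 2 / 3 by norm_num] at h
  exact h.congr fun p _ => by simp

/-- The primes `p ≡ 3 (mod 4)`. -/
theorem hasPrimeDensity_three_mod_four : HasPrimeDensity (fun p => p % 4 = 3) (1 / 2) := by
  have h := hasPrimeDensity_true.diff (hasPrimeDensity_dvd_sub_one 2) fun _ _ _ => trivial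
  rw [show (1 : ℝ) - 1 / (Nat.totient (2 ^ 2) : ℕ) = 1 / 2 by
    rw [show Nat.totient (2 ^ 2) = 2 by decide]; norm_num] at h
  refine h.congr_off two_ne_zero fun p hp hp2 => ?_
  have hodd := Nat.odd_iff.1 (hp.odd_of_ne_two fun e => hp2 (e ▸ dvd_rfl))
  simp only [true_and]
  omega

/-- The primes `p ≡ 13, 17 (mod 20)`. -/
theorem hasPrimeDensity_mod_twenty :
    HasPrimeDensity (fun p => p % 20 = 13 ∨ p % 20 = 17) (1 / 4) := by
  refine hasPrimeDensity_inert.congr_off (N := 2 * 5) (by norm_num) fun p hp hpN => ?_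
  haveI : Fact p.Prime := ⟨hp⟩
  have hp2 : p ≠ 2 := fun e => hpN (by rw [e]; norm_num)
  have hp5 : p ≠ 5 := fun e => hpN (by rw [e]; norm_num)
  have h0 : p % 5 ≠ 0 := fun e => hp5 ((Nat.prime_dvd_prime_iff_eq Nat.prime_five hp).1
    (Nat.dvd_of_mod_eq_zero e)).symm
  rw [hasGolden_iff hp2 hp5]
  clear hpN
  constructor <;> intro h
  · obtain ⟨h1, h2⟩ := h
    rw [← Nat.mod_mod_of_dvd p (show 4 ∣ 20 by norm_num)] at h1
    rw [← Nat.mod_mod_of_dvd p (show 5 ∣ 20 by norm_num)] at h2 h0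
    have hlt : p % 20 < 20 := Nat.mod_lt _ (by norm_num)
    generalize p % 20 = r at hlt h1 h2 h0 ⊢
    interval_cases r <;> omega
  · exact ⟨by omega, by omega⟩

theorem not_dvdLucas_mod_twenty {p : ℕ} (hp : p.Prime) (h : p % 20 = 13 ∨ p % 20 = 17) :
    ¬ DvdLucas p := by
  haveI : Fact p.Prime := ⟨hp⟩
  refine not_dvdLucas_of_one hp (by omega) ?_
  rw [hasGolden_iff (by omega) (by omega)]
  omega

end FA.LagariasLucas

end
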